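import Mathlib

/-!
# S41 / KEY-ALG (K0'): duality in lattice form

The surjectivity statement (H2) of the lattice step, from `ZMod p`-valued biadditive pairings on
the lattices themselves (perfect modulo `p`), in the integral shape of the S41 architecture.
-/

set_option autoImplicit false

namespace Fermat.Agent.S41.H84

/-- A subspace of a finite-dimensional space whose left orthogonal for a left-nondegenerate
bilinear form is trivial is the whole space. -/
theorem eq_top_of_forall_left_orthogonal {K V : Type*} [Field K] [AddCommGroup V] [Module K V]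
    [FiniteDimensional K V] (B : V →ₗ[K] V →ₗ[K] K) (hB : ∀ v, (∀ w, B v w = 0) → v = 0)
    (U : Submodule K V) (hU : ∀ v, (∀ u ∈ U, B v u = 0) → v = 0) : U = ⊤ := by
  by_contra hne
  obtain ⟨f, hf0, hf⟩ := Submodule.exists_le_ker_of_lt_top _ (lt_top_iff_ne_top.mpr hne)
  have hinj : Function.Injective B := by
    rw [injective_iff_map_eq_zero]
    intro v hv
    exact hB v fun w => by rw [hv]; rfl
  have hsurj : Function.Surjective B :=
    (LinearMap.injective_iff_surjective_of_finrank_eq_finrank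
      (Subspace.dual_finrank_eq (K := K) (V := V)).symm).mp hinj
  obtain ⟨v, rfl⟩ := hsurj f
  apply hf0
  rw [hU v fun u hu => hf hu, map_zero]

/-- Scalar multiplication by `c : ZMod p` is the `c.val`-fold sum. -/
theorem zmod_smul_eq_val_nsmul {p : ℕ} [NeZero p] {M : Type*} [AddCommGroup M] [Module (ZMod p) M]
    (c : ZMod p) (x : M) : c • x = c.val • x := by
  conv_lhs => rw [← ZMod.natCast_zmod_val c]
  exact Nat.cast_smul_eq_nsmul _ _ _

/-- Over `ZMod p`, biadditive maps are bilinear: the previous lemma for a biadditive pairing. -/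
theorem eq_top_of_forall_left_orthogonal_zmod {p : ℕ} [Fact p.Prime] {V : Type*} [AddCommGroup V]
    [Module (ZMod p) V] [Module.Finite (ZMod p) V] (B : V → V → ZMod p)
    (hBl : ∀ v v' w, B (v + v') w = B v w + B v' w) (hBr : ∀ v w w', B v (w + w') = B v w + B v w')
    (hB : ∀ v, (∀ w, B v w = 0) → v = 0)
    (U : Submodule (ZMod p) V) (hU : ∀ v, (∀ u ∈ U, B v u = 0) → v = 0) : U = ⊤ := by
  have hBzero : ∀ w, B 0 w = 0 := fun w => by
    have := hBl 0 0 w
    rw [add_zero] at this
    exact left_eq_add.mp this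
  have hBzero' : ∀ v, B v 0 = 0 := fun v => by
    have := hBr v 0 0
    rw [add_zero] at this
    exact left_eq_add.mp this
  have hnl : ∀ (n : ℕ) v w, B (n • v) w = n • B v w := by
    intro n v w
    induction n with
    | zero => rw [zero_smul, zero_smul, hBzero]
    | succ n ih => rw [succ_nsmul, succ_nsmul, hBl, ih]
  have hnr : ∀ (n : ℕ) v w, B v (n • w) = n • B v w := by
    intro n v w
    induction n with
    | zero => rw [zero_smul, zero_smul, hBzero']
    | succ n ih => rw [succ_nsmul, succ_nsmul, hBr, ih]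
  have hp : p.Prime := Fact.out
  haveI : NeZero p := ⟨hp.ne_zero⟩
  let Bl : V →ₗ[ZMod p] V →ₗ[ZMod p] ZMod p :=
    LinearMap.mk₂ (ZMod p) B hBl
      (fun c v w => by rw [zmod_smul_eq_val_nsmul c v, hnl, zmod_smul_eq_val_nsmul c (B v w)])
      hBr
      (fun c v w => by rw [zmod_smul_eq_val_nsmul c w, hnr, zmod_smul_eq_val_nsmul c (B v w)])
  exact eq_top_of_forall_left_orthogonal Bl hB U hU

/-- Subgroup form of the previous lemma. -/
theorem forall_mem_of_forall_left_orthogonal_zmod {p : ℕ} [Fact p.Prime] {V : Type*}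
    [AddCommGroup V] [Module (ZMod p) V] [Module.Finite (ZMod p) V] (B : V → V → ZMod p)
    (hBl : ∀ v v' w, B (v + v') w = B v w + B v' w) (hBr : ∀ v w w', B v (w + w') = B v w + B v w')
    (hB : ∀ v, (∀ w, B v w = 0) → v = 0)
    (U : AddSubgroup V) (hU : ∀ v, (∀ u ∈ U, B v u = 0) → v = 0) : ∀ x : V, x ∈ U := by
  intro x
  have h := eq_top_of_forall_left_orthogonal_zmod B hBl hBr hB (AddSubgroup.toZModSubmodule p U) hU
  have hx : x ∈ AddSubgroup.toZModSubmodule p U := by
    rw [h]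
    exact Submodule.mem_top
  exact hx

section

variable {L : Type*} [AddCommGroup L]

/-- The submodule `p L`. -/
def pMul (p : ℕ) (L : Type*) [AddCommGroup L] : Submodule ℤ L :=
  LinearMap.range (LinearMap.lsmul ℤ L (p : ℤ))

theorem mem_pMul {p : ℕ} {x : L} : x ∈ pMul p L ↔ ∃ y, x = p • y := by
  unfold pMul
  rw [LinearMap.mem_range]
  constructor
  · rintro ⟨y, rfl⟩
    exact ⟨y, by rw [LinearMap.lsmul_apply, natCast_zsmul]⟩
  · rintro ⟨y, rfl⟩
    exact ⟨y, by rw [LinearMap.lsmul_apply, natCast_zsmul]⟩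

end

/-- **(K0') Duality, lattice form.**  `B`, `B'` `ZMod p`-valued pairings on the abelian groups
`L` (finitely generated) and `L'`, `B` biadditive, both perfect modulo `p` on the left; `β` adjoint
to `α`, `τ` self-adjoint for `B`; (H1): `α v ∈ p L'` and `τ v ∈ p L` imply `v ∈ p L`.  Then
`L = τ L + β L' + p L`. -/
theorem exists_decomp_of_pairing {L L' : Type*} [AddCommGroup L] [AddCommGroup L']
    [Module.Finite ℤ L] (p : ℕ) [Fact p.Prime]
    (α : L →+ L') (β : L' →+ L) (τ : L →+ L)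
    (B : L → L → ZMod p) (B' : L' → L' → ZMod p)
    (hBl : ∀ v v' w, B (v + v') w = B v w + B v' w) (hBr : ∀ v w w', B v (w + w') = B v w + B v w')
    (hB : ∀ v, (∀ w, B v w = 0) → ∃ v', v = p • v')
    (hB' : ∀ y, (∀ y', B' y y' = 0) → ∃ z, y = p • z)
    (hadj : ∀ v y, B' (α v) y = B v (β y))
    (hsa : ∀ v w, B (τ v) w = B v (τ w))
    (hH1 : ∀ v, (∃ z, α v = p • z) → (∃ w, τ v = p • w) → ∃ w, v = p • w) :
    ∀ w : L, ∃ a y b, w = τ a + β y + p • b := by
  classical
  -- additive versions of the pairing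
  have hBzero : ∀ w, B 0 w = 0 := fun w => by
    have := hBl 0 0 w
    rw [add_zero] at this
    exact left_eq_add.mp this
  have hBzero' : ∀ v, B v 0 = 0 := fun v => by
    have := hBr v 0 0
    rw [add_zero] at this
    exact left_eq_add.mp this
  let Br : L → (L →ₗ[ℤ] ZMod p) := fun v =>
    (AddMonoidHom.toIntLinearMap
      { toFun := B v
        map_zero' := hBzero' v
        map_add' := hBr v })
  have hBrapp : ∀ v w, Br v w = B v w := fun v w => rfl
  have hBnsmul : ∀ (n : ℕ) v w, B (n • v) w = n • B v w := by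
    intro n v w
    induction n with
    | zero => rw [zero_smul, zero_smul, hBzero]
    | succ n ih => rw [succ_nsmul, succ_nsmul, hBl, ih]
  have hpz : ∀ z : ZMod p, p • z = 0 := fun z => by
    rw [nsmul_eq_mul, ZMod.natCast_self, zero_mul]
  -- the quotient `V = L / p L`
  let H : Submodule ℤ L := pMul p L
  have hmk0 : ∀ v : L, (Submodule.Quotient.mk v : L ⧸ H) = 0 ↔ ∃ w, v = p • w := fun v => by
    rw [Submodule.Quotient.mk_eq_zero]
    exact mem_pMul
  letI instV : Module (ZMod p) (L ⧸ H) := AddCommGroup.zmodModule (n := p) (by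
    intro x
    obtain ⟨y, rfl⟩ := Submodule.Quotient.mk_surjective H x
    rw [← Submodule.Quotient.mk_smul, hmk0]
    exact ⟨y, rfl⟩)
  have hfinV : Module.Finite (ZMod p) (L ⧸ H) :=
    Module.Finite.of_restrictScalars_finite ℤ (ZMod p) (L ⧸ H)
  -- the pairing on `V`
  let g : L →ₗ[ℤ] ((L ⧸ H) →ₗ[ℤ] ZMod p) :=
    AddMonoidHom.toIntLinearMap
      { toFun := fun v => H.liftQ (Br v) (by
          intro x hx
          obtain ⟨y, rfl⟩ := mem_pMul.1 hx
          rw [LinearMap.mem_ker, map_nsmul]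
          exact hpz _)
        map_zero' := by
          apply Submodule.linearMap_qext
          ext x
          exact hBzero x
        map_add' := fun v v' => by
          apply Submodule.linearMap_qext
          ext x
          exact hBl v v' x }
  have hgH : H ≤ LinearMap.ker g := by
    intro x hx
    obtain ⟨y, rfl⟩ := mem_pMul.1 hx
    rw [LinearMap.mem_ker]
    apply Submodule.linearMap_qext
    ext w
    change B (p • y) w = 0
    rw [hBnsmul]
    exact hpz _
  let Ψ₀ : (L ⧸ H) →ₗ[ℤ] ((L ⧸ H) →ₗ[ℤ] ZMod p) := H.liftQ g hgH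
  have hΨ₀ : ∀ v w : L, Ψ₀ (Submodule.Quotient.mk v) (Submodule.Quotient.mk w) = B v w :=
    fun v w => rfl
  -- the subgroup `τ L + β L'` of `V`
  let Ua : AddSubgroup (L ⧸ H) := (τ.range ⊔ β.range).map (H.mkQ).toAddMonoidHom
  have hUiff : ∀ x : L ⧸ H, x ∈ Ua ↔
      ∃ (a : L) (y : L'), (Submodule.Quotient.mk (τ a + β y) : L ⧸ H) = x := by
    intro x
    rw [AddSubgroup.mem_map]
    constructor
    · rintro ⟨u, hu, rfl⟩
      obtain ⟨t, ⟨a, rfl⟩, s, ⟨y, rfl⟩, rfl⟩ := AddSubgroup.mem_sup.1 hu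
      exact ⟨a, y, rfl⟩
    · rintro ⟨a, y, rfl⟩
      exact ⟨τ a + β y, add_mem (AddSubgroup.mem_sup_left (AddMonoidHom.mem_range.2 ⟨a, rfl⟩))
        (AddSubgroup.mem_sup_right (AddMonoidHom.mem_range.2 ⟨y, rfl⟩)), rfl⟩
  have hUmem : ∀ a y, (Submodule.Quotient.mk (τ a + β y) : L ⧸ H) ∈ Ua := fun a y =>
    (hUiff _).2 ⟨a, y, rfl⟩
  have h1 : ∀ a b c : L ⧸ H, Ψ₀ (a + b) c = Ψ₀ a c + Ψ₀ b c := by
    intro a b c
    rw [map_add, LinearMap.add_apply]
  have h2 : ∀ a b c : L ⧸ H, Ψ₀ a (b + c) = Ψ₀ a b + Ψ₀ a c := fun a b c => map_add (Ψ₀ a) b c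
  have h3 : ∀ vb : L ⧸ H, (∀ wb : L ⧸ H, Ψ₀ vb wb = 0) → vb = 0 := by
    intro vb hvb
    obtain ⟨v, rfl⟩ := Submodule.Quotient.mk_surjective H vb
    rw [hmk0]
    exact hB v fun w => hvb (Submodule.Quotient.mk w)
  have h4 : ∀ vb : L ⧸ H, (∀ u ∈ Ua, Ψ₀ vb u = 0) → vb = 0 := by
    intro vb hvb
    obtain ⟨v, rfl⟩ := Submodule.Quotient.mk_surjective H vb
    rw [hmk0]
    apply hH1
    · apply hB'
      intro y
      rw [hadj]
      have := hvb _ (hUmem 0 y)
      rwa [map_zero, zero_add] at this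
    · apply hB
      intro w
      rw [hsa]
      have := hvb _ (hUmem w 0)
      rwa [map_zero, add_zero] at this
  have hUall : ∀ x : L ⧸ H, x ∈ Ua :=
    @forall_mem_of_forall_left_orthogonal_zmod p _ (L ⧸ H) _ instV hfinV
      (fun vb wb => Ψ₀ vb wb) h1 h2 h3 Ua h4
  intro w
  obtain ⟨a, y, huw⟩ := (hUiff _).1 (hUall (Submodule.Quotient.mk w))
  have h0 : (Submodule.Quotient.mk (w - (τ a + β y)) : L ⧸ H) = 0 := by
    rw [Submodule.Quotient.mk_sub, sub_eq_zero]
    exact huw.symm
  obtain ⟨b, hb⟩ := (hmk0 _).1 h0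
  exact ⟨a, y, b, by rw [← hb]; abel⟩

end Fermat.Agent.S41.H84
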