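import Mathlib
import Fermat.Agent.S49.LinAlg

/-!
# S41 / KEY-ALG (K2): from an eigenvector mod `p` of a lattice to a complex eigenvector

Wrapper of the landed Deligne–Serre engine `Fermat.Agent.S49.exists_eigen_lift`.
-/

set_option autoImplicit false

namespace Fermat.Agent.S41.H84

open Fermat.Agent.S49

section Core

variable {Λ : Type*} [AddCommGroup Λ] {W : Type*} [AddCommGroup W] [Module ℂ W]

/-- Every element of the `ℤ`-algebra generated by the `SW i` preserves the lattice `j Λ`. -/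
theorem adjoin_preserves (j : Λ →+ W) {ι : Type*} (S : ι → (Λ →+ Λ))
    (SW : ι → (W →ₗ[ℂ] W)) (hjS : ∀ i y, SW i (j y) = j (S i y))
    (a : Module.End ℂ W) (ha : a ∈ Algebra.adjoin ℤ (Set.range SW)) :
    ∀ y, ∃ y', a (j y) = j y' := by
  induction ha using Algebra.adjoin_induction with
  | mem x hx =>
    obtain ⟨i, rfl⟩ := hx
    exact fun y => ⟨S i y, hjS i y⟩
  | algebraMap r =>
    intro y
    refine ⟨r • y, ?_⟩
    rw [map_zsmul, Algebra.algebraMap_eq_smul_one, LinearMap.smul_apply]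
    rfl
  | add x y _ _ hx hy =>
    intro z
    obtain ⟨x', hx'⟩ := hx z
    obtain ⟨y', hy'⟩ := hy z
    exact ⟨x' + y', by rw [LinearMap.add_apply, hx', hy', map_add]⟩
  | mul x y _ _ hx hy =>
    intro z
    obtain ⟨y', hy'⟩ := hy z
    obtain ⟨x', hx'⟩ := hx y'
    exact ⟨x', by rw [Module.End.mul_apply, hy', hx']⟩

open scoped IsMulCommutative in
/-- Core of (K2): the case where `j Λ` spans the finite-dimensional space `W`. -/
theorem exists_eigen_lift_core [Module.Finite ℤ Λ] [FiniteDimensional ℂ W]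
    (j : Λ →+ W) (hj : Function.Injective j) (hspan : Submodule.span ℂ (Set.range j) = ⊤)
    {ι : Type*} (S : ι → (Λ →+ Λ)) (hS : ∀ i k y, S i (S k y) = S k (S i y))
    (SW : ι → (W →ₗ[ℂ] W)) (hjS : ∀ i y, SW i (j y) = j (S i y))
    (p : ℕ) (y₀ : Λ) (hy₀ : ¬ ∃ z, y₀ = p • z)
    (ι₀ : Set ι) (c : ι → ℤ) (hc : ∀ i ∈ ι₀, ∃ z, S i y₀ - c i • y₀ = p • z) :
    ∃ (w : W) (lam : ι → integralClosure ℤ ℂ) (𝔪' : Ideal (integralClosure ℤ ℂ)),
      w ≠ 0 ∧ 𝔪'.IsMaximal ∧ (p : integralClosure ℤ ℂ) ∈ 𝔪' ∧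
      (∀ i, SW i w = ((lam i : integralClosure ℤ ℂ) : ℂ) • w) ∧
      ∀ i ∈ ι₀, lam i - (c i : integralClosure ℤ ℂ) ∈ 𝔪' := by
  classical
  have hcomm : ∀ a ∈ Set.range SW, ∀ b ∈ Set.range SW, a * b = b * a := by
    rintro _ ⟨i, rfl⟩ _ ⟨k, rfl⟩
    apply LinearMap.ext_on hspan
    rintro _ ⟨y, rfl⟩
    simp only [Module.End.mul_apply, hjS, hS i k y]
  have hmc : IsMulCommutative (Algebra.adjoin ℤ (Set.range SW)) :=
    Algebra.isMulCommutative_adjoin ℤ hcomm
  set A := Algebra.adjoin ℤ (Set.range SW) with hA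
  have hpres : ∀ (a : A) (y : Λ), ∃ y', (a : Module.End ℂ W) (j y) = j y' := fun a y =>
    adjoin_preserves j S SW hjS a.1 a.2 y
  -- finiteness of `A` over `ℤ`
  obtain ⟨s, hs⟩ := (Module.Finite.fg_top : (⊤ : Submodule ℤ Λ).FG)
  let R : Submodule ℤ W := LinearMap.range j.toIntLinearMap
  have hR : ∀ (a : A) (y : Λ), (a : Module.End ℂ W) (j y) ∈ R := fun a y => by
    obtain ⟨y', hy'⟩ := hpres a y
    exact ⟨y', hy'.symm⟩
  let Φ : A →ₗ[ℤ] (s → R) :=
    { toFun := fun a g => ⟨(a : Module.End ℂ W) (j g), hR a g⟩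
      map_add' := fun a b => by
        funext g
        apply Subtype.ext
        rfl
      map_smul' := fun n a => by
        funext g
        apply Subtype.ext
        rfl }
  have hΦ : Function.Injective Φ := by
    rw [injective_iff_map_eq_zero]
    intro a ha
    have h1 : ∀ g ∈ s, (a : Module.End ℂ W) (j g) = 0 := fun g hg => by
      have := congrArg Subtype.val (congrFun ha ⟨g, hg⟩)
      exact this
    have h2 : ∀ y : Λ, (a : Module.End ℂ W) (j y) = 0 := by
      intro y
      have hy : y ∈ Submodule.span ℤ (s : Set Λ) := by rw [hs]; trivial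
      induction hy using Submodule.span_induction with
      | mem x hx => exact h1 x hx
      | zero => rw [map_zero, map_zero]
      | add x y _ _ hx hy => rw [map_add, map_add, hx, hy, add_zero]
      | smul n x _ hx => rw [map_zsmul, map_zsmul, hx, smul_zero]
    apply Subtype.ext
    apply LinearMap.ext_on hspan
    rintro _ ⟨y, rfl⟩
    exact h2 y
  have hfinA : Module.Finite ℤ A := Module.Finite.of_injective Φ hΦ
  -- the ideal
  let gen : ι → A := fun i => ⟨SW i, Algebra.subset_adjoin ⟨i, rfl⟩⟩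
  let I : Ideal A := Ideal.span (insert (p : A) ((fun i => gen i - (c i : A)) '' ι₀))
  have hI : ∀ a ∈ I, ∃ z, (a : Module.End ℂ W) (j y₀) = j (p • z) := by
    intro a ha
    induction ha using Submodule.span_induction with
    | mem x hx =>
      rcases hx with rfl | ⟨i, hi, rfl⟩
      · refine ⟨y₀, ?_⟩
        rw [map_nsmul]
        change ((p : Module.End ℂ W)) (j y₀) = _
        rw [← nsmul_one, LinearMap.smul_apply]
        rfl
      · obtain ⟨z, hz⟩ := hc i hi
        refine ⟨z, ?_⟩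
        rw [← hz, map_sub, map_zsmul, ← hjS]
        change (SW i - (c i : Module.End ℂ W)) (j y₀) = _
        rw [LinearMap.sub_apply, ← zsmul_one, LinearMap.smul_apply]
        rfl
    | zero => exact ⟨0, by simp⟩
    | add x y _ _ hx hy =>
      obtain ⟨z, hz⟩ := hx
      obtain ⟨z', hz'⟩ := hy
      refine ⟨z + z', ?_⟩
      change ((x : Module.End ℂ W) + (y : Module.End ℂ W)) (j y₀) = _
      rw [LinearMap.add_apply, hz, hz', smul_add, map_add]
    | smul a x _ hx =>
      obtain ⟨z, hz⟩ := hx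
      obtain ⟨z', hz'⟩ := hpres a z
      refine ⟨z', ?_⟩
      change ((a : Module.End ℂ W) * (x : Module.End ℂ W)) (j y₀) = _
      rw [Module.End.mul_apply, hz, map_nsmul, map_nsmul, hz', map_nsmul]
  have hItop : I ≠ ⊤ := by
    intro htop
    obtain ⟨z, hz⟩ := hI 1 (htop ▸ Submodule.mem_top)
    apply hy₀
    refine ⟨z, hj ?_⟩
    rw [← hz]
    rfl
  obtain ⟨w, lam, 𝔪', hw0, hmax, heig, hmem⟩ :=
    exists_eigen_lift (A := A) (V := W) A.val.toRingHom Subtype.val_injective I hItop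
  refine ⟨w, fun i => lam (gen i), 𝔪', hw0, hmax, ?_, fun i => heig (gen i), ?_⟩
  · have := hmem (p : A) (Ideal.subset_span (Set.mem_insert _ _))
    rwa [map_natCast] at this
  · intro i hi
    have := hmem (gen i - (c i : A))
      (Ideal.subset_span (Set.mem_insert_of_mem _ ⟨i, hi, rfl⟩))
    rwa [map_sub, map_intCast] at this

/-- **(K2) Eigen-lift.**  `Λ` a finitely generated abelian group embedded by `j` in a complex
vector space `W`, with a commuting family `S i` of endomorphisms extended by `ℂ`-linear maps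
`SW i`.  If `y₀ ∉ p Λ` satisfies `S i y₀ ≡ c i • y₀ mod p Λ` for `i ∈ ι₀`, then the complex span of
`j Λ` contains a common eigenvector of all the `SW i`, with eigenvalues `lam i` in the algebraic
integers, and there is a maximal ideal `𝔪'` containing `p` with `lam i ≡ c i mod 𝔪'` for
`i ∈ ι₀`. -/
theorem exists_eigen_lift_of_mod_p [Module.Finite ℤ Λ]
    (j : Λ →+ W) (hj : Function.Injective j)
    {ι : Type*} (S : ι → (Λ →+ Λ)) (hS : ∀ i k y, S i (S k y) = S k (S i y))
    (SW : ι → (W →ₗ[ℂ] W)) (hjS : ∀ i y, SW i (j y) = j (S i y))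
    (p : ℕ) (y₀ : Λ) (hy₀ : ¬ ∃ z, y₀ = p • z)
    (ι₀ : Set ι) (c : ι → ℤ) (hc : ∀ i ∈ ι₀, ∃ z, S i y₀ - c i • y₀ = p • z) :
    ∃ (w : W) (lam : ι → integralClosure ℤ ℂ) (𝔪' : Ideal (integralClosure ℤ ℂ)),
      w ≠ 0 ∧ w ∈ Submodule.span ℂ (Set.range j) ∧ 𝔪'.IsMaximal ∧
      (p : integralClosure ℤ ℂ) ∈ 𝔪' ∧
      (∀ i, SW i w = ((lam i : integralClosure ℤ ℂ) : ℂ) • w) ∧
      ∀ i ∈ ι₀, lam i - (c i : integralClosure ℤ ℂ) ∈ 𝔪' := by
  classical
  set W₀ : Submodule ℂ W := Submodule.span ℂ (Set.range j) with hW₀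
  have hjmem : ∀ y, j y ∈ W₀ := fun y => Submodule.subset_span ⟨y, rfl⟩
  -- finite-dimensionality of the span
  obtain ⟨s, hs⟩ := (Module.Finite.fg_top : (⊤ : Submodule ℤ Λ).FG)
  have hW₀s : W₀ = Submodule.span ℂ (j '' (s : Set Λ)) := by
    apply le_antisymm
    · rw [hW₀, Submodule.span_le]
      rintro _ ⟨y, rfl⟩
      have hy : y ∈ Submodule.span ℤ (s : Set Λ) := by rw [hs]; trivial
      induction hy using Submodule.span_induction with
      | mem x hx => exact Submodule.subset_span ⟨x, hx, rfl⟩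
      | zero => rw [map_zero]; exact Submodule.zero_mem _
      | add x y _ _ hx hy => rw [map_add]; exact Submodule.add_mem _ hx hy
      | smul n x _ hx => rw [map_zsmul]; exact Submodule.smul_of_tower_mem _ n hx
    · exact Submodule.span_mono (Set.image_subset_range _ _)
  have hfd : FiniteDimensional ℂ W₀ := by
    rw [hW₀s]
    exact FiniteDimensional.span_of_finite ℂ (s.finite_toSet.image _)
  have hstab : ∀ i, ∀ x ∈ W₀, SW i x ∈ W₀ := by
    intro i x hx
    have hle : W₀.map (SW i) ≤ W₀ := by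
      rw [hW₀, Submodule.map_span_le]
      rintro _ ⟨y, rfl⟩
      rw [hjS]
      exact Submodule.subset_span ⟨_, rfl⟩
    exact hle ⟨x, hx, rfl⟩
  let T : ι → (W₀ →ₗ[ℂ] W₀) := fun i => (SW i).restrict (hstab i)
  let j₀ : Λ →+ W₀ := j.codRestrict W₀ hjmem
  have hj₀ : Function.Injective j₀ := fun a b hab => hj (congrArg Subtype.val hab)
  have hspan₀ : Submodule.span ℂ (Set.range j₀) = ⊤ := by
    apply Submodule.map_injective_of_injective W₀.injective_subtype
    rw [Submodule.map_span, Submodule.map_subtype_top, ← Set.range_comp]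
    rfl
  obtain ⟨w, lam, 𝔪', hw0, hmax, hp𝔪, heig, hcong⟩ :=
    exists_eigen_lift_core j₀ hj₀ hspan₀ S hS T
      (fun i y => Subtype.ext (hjS i y)) p y₀ hy₀ ι₀ c hc
  refine ⟨(w : W), lam, 𝔪', fun h => hw0 (Subtype.ext h), w.2, hmax, hp𝔪, fun i => ?_, hcong⟩
  exact congrArg Subtype.val (heig i)

end Core

end Fermat.Agent.S41.H84
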