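import Mathlib

/-!
# S41 / KEY-ALG (K1): the lattice step of level raising

Pure `ℤ`-algebra.  `L` plays the role of the pairs of integral parabolic classes of level `N`,
`L'` that of the integral parabolic classes of level `N q`, `α` the sum of the two degeneracy maps,
`β` the pair of transfers, `τ = T_ℓ₀ - a_ℓ₀` for one non-Eisenstein prime `ℓ₀`.

From a vector `v` of `L`, nonzero mod `p`, killed mod `p` by `β ∘ α` and by `τ`, we produce an
element of `ker β` (a genuinely `q`-new integral class), nonzero mod `p` and congruent to `α v`.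
-/

set_option autoImplicit false

namespace Fermat.Agent.S41.H84

open Submodule

section Lattice

variable {L : Type*} [AddCommGroup L]

/-- Nakayama-type iteration: if `L = τ L + J + p L` then `L = τ L + J + p ^ k L` for all `k`. -/
theorem exists_decomp_pow (p : ℕ) (J : Submodule ℤ L) (τ : L →ₗ[ℤ] L)
    (hH2 : ∀ w : L, ∃ a : L, ∃ j ∈ J, ∃ b : L, w = τ a + j + p • b) (k : ℕ) :
    ∀ w : L, ∃ a : L, ∃ j ∈ J, ∃ b : L, w = τ a + j + p ^ k • b := by
  induction k with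
  | zero =>
    intro w
    exact ⟨0, 0, J.zero_mem, w, by simp⟩
  | succ k ih =>
    intro w
    obtain ⟨a, j, hj, b, hw⟩ := ih w
    obtain ⟨a', j', hj', b', hb⟩ := hH2 b
    refine ⟨a + p ^ k • a', j + p ^ k • j', J.add_mem hj (J.smul_of_tower_mem _ hj'), b', ?_⟩
    rw [hw, hb, map_add, map_nsmul, pow_succ, mul_smul]
    simp only [smul_add]
    abel

/-- The submodule `J + p ^ k L`. -/
def supPow (p : ℕ) (J : Submodule ℤ L) (k : ℕ) : Submodule ℤ L :=
  J ⊔ LinearMap.range (LinearMap.lsmul ℤ L ((p ^ k : ℕ) : ℤ))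

theorem mem_supPow {p : ℕ} {J : Submodule ℤ L} {k : ℕ} {x : L} :
    x ∈ supPow p J k ↔ ∃ j ∈ J, ∃ b : L, x = j + p ^ k • b := by
  unfold supPow
  rw [Submodule.mem_sup]
  constructor
  · rintro ⟨j, hj, z, ⟨b, rfl⟩, rfl⟩
    exact ⟨j, hj, b, by rw [LinearMap.lsmul_apply, natCast_zsmul]⟩
  · rintro ⟨j, hj, b, rfl⟩
    exact ⟨j, hj, p ^ k • b, ⟨b, by rw [LinearMap.lsmul_apply, natCast_zsmul]⟩, rfl⟩

/-- If `τ` is onto modulo `J + p L`, it is injective modulo `J + p ^ k L` for every `k`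
(a surjective endomorphism of a finite group is injective). -/
theorem mem_supPow_of_tau_mem [Module.Finite ℤ L] (p : ℕ) (hp : 0 < p) (J : Submodule ℤ L)
    (τ : L →ₗ[ℤ] L) (hτJ : ∀ x ∈ J, τ x ∈ J)
    (hH2 : ∀ w : L, ∃ a : L, ∃ j ∈ J, ∃ b : L, w = τ a + j + p • b) (k : ℕ)
    (x : L) (hx : τ x ∈ supPow p J k) : x ∈ supPow p J k := by
  set N := supPow p J k with hN
  have hle : N ≤ N.comap τ := by
    intro y hy
    rw [Submodule.mem_comap]
    rw [hN, mem_supPow] at hy ⊢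
    obtain ⟨j, hj, b, rfl⟩ := hy
    exact ⟨τ j, hτJ j hj, τ b, by rw [map_add, map_nsmul]⟩
  have htors : Module.IsTorsion ℤ (L ⧸ N) := by
    intro q
    refine ⟨⟨((p ^ k : ℕ) : ℤ), ?_⟩, ?_⟩
    · rw [mem_nonZeroDivisors_iff_ne_zero]
      exact_mod_cast (pow_pos hp k).ne'
    · obtain ⟨y, rfl⟩ := Submodule.Quotient.mk_surjective N q
      change ((p ^ k : ℕ) : ℤ) • (Submodule.Quotient.mk y : L ⧸ N) = 0
      rw [← Submodule.Quotient.mk_smul, Submodule.Quotient.mk_eq_zero, hN, mem_supPow]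
      exact ⟨0, J.zero_mem, y, by rw [zero_add, natCast_zsmul]⟩
  have hfin : Finite (L ⧸ N) := Module.finite_of_fg_torsion _ htors
  have hsurj : Function.Surjective (N.mapQ N τ hle) := by
    intro q
    obtain ⟨w, rfl⟩ := Submodule.Quotient.mk_surjective N q
    obtain ⟨a, j, hj, b, hw⟩ := exists_decomp_pow p J τ hH2 k w
    refine ⟨Submodule.Quotient.mk a, ?_⟩
    rw [Submodule.mapQ_apply, Submodule.Quotient.eq, hN, mem_supPow]
    refine ⟨-j, J.neg_mem hj, -b, ?_⟩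
    rw [hw]
    simp only [smul_neg]
    abel
  have hinj : Function.Injective (N.mapQ N τ hle) := Finite.injective_iff_surjective.mpr hsurj
  have h0 : N.mapQ N τ hle (Submodule.Quotient.mk x) = N.mapQ N τ hle 0 := by
    rw [Submodule.mapQ_apply, map_zero, Submodule.Quotient.mk_eq_zero]
    exact hx
  have := hinj h0
  rwa [Submodule.Quotient.mk_eq_zero] at this

/-- The `p`-power torsion of `L / J` has bounded exponent. -/
theorem exists_bound_pow [Module.Finite ℤ L] (p : ℕ) (J : Submodule ℤ L) :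
    ∃ e : ℕ, ∀ (x : L) (m : ℕ), p ^ m • x ∈ J → p ^ e • x ∈ J := by
  have hnoeth : IsNoetherian ℤ L := isNoetherian_of_isNoetherianRing_of_finite ℤ L
  let f : ℕ →o Submodule ℤ L :=
    { toFun := fun m => J.comap (LinearMap.lsmul ℤ L ((p ^ m : ℕ) : ℤ))
      monotone' := by
        intro a b hab x hx
        simp only [Submodule.mem_comap, LinearMap.lsmul_apply, natCast_zsmul] at hx ⊢
        obtain ⟨c, rfl⟩ := Nat.exists_eq_add_of_le hab
        rw [pow_add, mul_comm, mul_smul]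
        exact J.smul_of_tower_mem _ hx }
  obtain ⟨e, he⟩ := monotone_stabilizes_iff_noetherian.mpr hnoeth f
  refine ⟨e, fun x m hm => ?_⟩
  have hmem : ∀ n, x ∈ f n ↔ p ^ n • x ∈ J := fun n => by
    change x ∈ J.comap (LinearMap.lsmul ℤ L ((p ^ n : ℕ) : ℤ)) ↔ _
    rw [Submodule.mem_comap, LinearMap.lsmul_apply, natCast_zsmul]
  rcases le_total e m with h | h
  · rw [← hmem, he m h, hmem]
    exact hm
  · rw [← hmem]
    exact f.monotone h ((hmem m).2 hm)

/-- Key torsion statement: if `L = τ L + J + p L`, then `τ` is injective on the `p`-torsion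
of `L / J`. -/
theorem mem_of_smul_mem_of_tau_mem [Module.Finite ℤ L] (p : ℕ) (hp : 0 < p) (J : Submodule ℤ L)
    (τ : L →ₗ[ℤ] L) (hτJ : ∀ x ∈ J, τ x ∈ J)
    (hH2 : ∀ w : L, ∃ a : L, ∃ j ∈ J, ∃ b : L, w = τ a + j + p • b)
    (u : L) (hpu : p • u ∈ J) (hτu : τ u ∈ J) : u ∈ J := by
  obtain ⟨e, he⟩ := exists_bound_pow p J
  have h1 : u ∈ supPow p J (e + 1) := by
    apply mem_supPow_of_tau_mem p hp J τ hτJ hH2 (e + 1) u
    rw [mem_supPow]
    exact ⟨τ u, hτu, 0, by simp⟩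
  rw [mem_supPow] at h1
  obtain ⟨j, hj, d, rfl⟩ := h1
  have h2 : p ^ (e + 2) • d ∈ J := by
    have h3 : p ^ (e + 2) • d = p • (j + p ^ (e + 1) • d) - p • j := by
      rw [smul_add, ← mul_smul, ← pow_succ']
      abel
    rw [h3]
    exact J.sub_mem hpu (J.smul_of_tower_mem _ hj)
  have h4 : p ^ e • d ∈ J := he d _ h2
  have h5 : p ^ (e + 1) • d ∈ J := by
    rw [pow_succ', mul_smul]
    exact J.smul_of_tower_mem _ h4
  exact J.add_mem hj h5

end Lattice

/-- **(K1) Lattice step of level raising.**  `p` a prime number, `L`, `L'` abelian groups, `L`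
finitely generated without `p`-torsion, `α : L → L'`, `β : L' → L`, `τ : L → L` additive with
`τ (β L') ⊆ β L'` and `τ β α = β α τ`.  Assume

* (H1) `α v ∈ p L'` and `τ v ∈ p L` imply `v ∈ p L`  (Ihara at the eigenvalue);
* (H2) `L = τ L + β L' + p L`  (duality).

If `v ∉ p L` satisfies `β (α v) ∈ p L` and `τ v ∈ p L`, then there is `y ∈ ker β` with
`y ∉ p L'` and `y ≡ α v mod p L'`. -/
theorem exists_ker_lift {L L' : Type*} [AddCommGroup L] [AddCommGroup L'] [Module.Finite ℤ L]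
    (p : ℕ) (hp : 0 < p) (htf : ∀ x : L, p • x = 0 → x = 0)
    (α : L →+ L') (β : L' →+ L) (τ : L →+ L)
    (hτβ : ∀ y, ∃ y', τ (β y) = β y')
    (hcomm : ∀ v, τ (β (α v)) = β (α (τ v)))
    (hH1 : ∀ v, (∃ z, α v = p • z) → (∃ w, τ v = p • w) → ∃ w, v = p • w)
    (hH2 : ∀ w : L, ∃ a y b, w = τ a + β y + p • b)
    (v : L) (hv : ¬ ∃ w, v = p • w) (hβαv : ∃ u, β (α v) = p • u) (hτv : ∃ w, τ v = p • w) :
    ∃ y : L', β y = 0 ∧ (¬ ∃ z, y = p • z) ∧ ∃ z, y - α v = p • z := by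
  set J : Submodule ℤ L := LinearMap.range β.toIntLinearMap with hJ
  have hJmem : ∀ x, x ∈ J ↔ ∃ y, β y = x := fun x => by
    rw [hJ, LinearMap.mem_range]
    rfl
  obtain ⟨u, hu⟩ := hβαv
  obtain ⟨w, hw⟩ := hτv
  have hτu : τ.toIntLinearMap u ∈ J := by
    rw [hJmem]
    refine ⟨α w, ?_⟩
    rw [← sub_eq_zero]
    apply htf
    rw [smul_sub, sub_eq_zero]
    change p • β (α w) = p • τ u
    rw [← map_nsmul τ, ← hu, hcomm, hw, map_nsmul, map_nsmul]
  have hpu : p • u ∈ J := by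
    rw [hJmem]
    exact ⟨α v, hu⟩
  have huJ : u ∈ J := by
    apply mem_of_smul_mem_of_tau_mem p hp J τ.toIntLinearMap _ _ u hpu hτu
    · intro x hx
      rw [hJmem] at hx ⊢
      obtain ⟨y, rfl⟩ := hx
      obtain ⟨y', hy'⟩ := hτβ y
      exact ⟨y', hy'.symm⟩
    · intro x
      obtain ⟨a, y, b, hx⟩ := hH2 x
      exact ⟨a, β y, (hJmem _).2 ⟨y, rfl⟩, b, hx⟩
  rw [hJmem] at huJ
  obtain ⟨z, hz⟩ := huJ
  refine ⟨α v - p • z, ?_, ?_, -z, by simp⟩
  · rw [map_sub, map_nsmul, hz, hu, sub_self]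
  · rintro ⟨z', hz'⟩
    apply hv
    refine hH1 v ⟨z + z', ?_⟩ ⟨w, hw⟩
    rw [smul_add, ← hz']
    abel

end Fermat.Agent.S41.H84
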