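import Mathlib
import Fermat.Agent.S41.H84.Lattice
import Fermat.Agent.S41.H84.DualLattice
import Fermat.Agent.S41.H84.EigenLift

/-!
# S41 / KEY-ALG: the abstract level-raising theorem in integral form

`exists_new_eigen_int` is the statement consumed by the S41 assembly: everything is stated on the
lattices `X` (integral parabolic classes of level `N`) and `Y` (level `N q`); the quotient
`(X × X) / p` and its `ZMod p`-structure are built inside.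
-/

set_option autoImplicit false

namespace Fermat.Agent.S41.H84

/-- The eigen-lift step applied to `ker β`: from `y ∈ ker β`, `y ∉ p L'`, `y ≡ α v mod p` with
`v` an eigenvector modulo `p` of the `S i`, `i ∈ ι₀`. -/
theorem exists_eigen_of_ker_elt (p : ℕ)
    {L L' : Type*} [AddCommGroup L] [AddCommGroup L'] [Module.Finite ℤ L']
    (htf : ∀ x : L, p • x = 0 → x = 0)
    (α : L →+ L') (β : L' →+ L)
    {ι : Type*} (S' : ι → (L' →+ L'))
    (hS'comm : ∀ i k y, β y = 0 → S' i (S' k y) = S' k (S' i y))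
    (hS'β : ∀ i y, β y = 0 → β (S' i y) = 0)
    (ι₀ : Set ι) (S : ι → (L →+ L)) (c : ι → ℤ)
    (hαS : ∀ i ∈ ι₀, ∀ x, α (S i x) = S' i (α x))
    (v : L) (hSv : ∀ i ∈ ι₀, ∃ w, S i v - c i • v = p • w)
    (y : L') (hyβ : β y = 0) (hyp : ¬ ∃ z, y = p • z) (hyv : ∃ z, y - α v = p • z)
    {W : Type*} [AddCommGroup W] [Module ℂ W] (j : L' →+ W) (hj : Function.Injective j)
    (SW : ι → (W →ₗ[ℂ] W)) (hjS : ∀ i y, SW i (j y) = j (S' i y)) :
    ∃ (w : W) (lam : ι → integralClosure ℤ ℂ) (𝔪' : Ideal (integralClosure ℤ ℂ)),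
      w ≠ 0 ∧ w ∈ Submodule.span ℂ (j '' {y | β y = 0}) ∧ 𝔪'.IsMaximal ∧
      (p : integralClosure ℤ ℂ) ∈ 𝔪' ∧
      (∀ i, SW i w = ((lam i : integralClosure ℤ ℂ) : ℂ) • w) ∧
      ∀ i ∈ ι₀, lam i - (c i : integralClosure ℤ ℂ) ∈ 𝔪' := by
  classical
  obtain ⟨z₁, hz₁⟩ := hyv
  let K : Submodule ℤ L' := LinearMap.ker β.toIntLinearMap
  have hKmem : ∀ x, x ∈ K ↔ β x = 0 := fun x => LinearMap.mem_ker
  have hnoeth : IsNoetherian ℤ L' := isNoetherian_of_isNoetherianRing_of_finite ℤ L'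
  have hfinK : Module.Finite ℤ K := Module.IsNoetherian.finite ℤ K
  let SK : ι → (K →+ K) := fun i =>
    ((S' i).toIntLinearMap.restrict
      (fun x hx => (hKmem _).2 (hS'β i x ((hKmem x).1 hx)))).toAddMonoidHom
  let jK : K →+ W := j.comp K.subtype.toAddMonoidHom
  have hjK : Function.Injective jK := fun a b hab => Subtype.ext (hj hab)
  have hy₀ : ¬ ∃ z : K, (⟨y, (hKmem y).2 hyβ⟩ : K) = p • z := by
    rintro ⟨z, hz⟩
    exact hyp ⟨z, by simpa using congrArg Subtype.val hz⟩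
  have hcK : ∀ i ∈ ι₀, ∃ z : K, SK i ⟨y, (hKmem y).2 hyβ⟩ - c i • (⟨y, (hKmem y).2 hyβ⟩ : K) =
      p • z := by
    intro i hi
    obtain ⟨w, hw⟩ := hSv i hi
    have hy : y = α v + p • z₁ := by rw [← hz₁]; abel
    have h1 : S' i y - c i • y = p • (α w + (S' i z₁ - c i • z₁)) := by
      rw [hy, map_add, map_nsmul, smul_add, ← hαS i hi, smul_add, smul_sub, ← map_nsmul α, ← hw,
        map_sub, map_zsmul, smul_comm (c i) p z₁]
      abel
    have h2 : β (α w + (S' i z₁ - c i • z₁)) = 0 := by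
      apply htf
      rw [← map_nsmul, ← h1, map_sub, map_zsmul, hyβ, hS'β i y hyβ, smul_zero, sub_zero]
    refine ⟨⟨_, (hKmem _).2 h2⟩, Subtype.ext ?_⟩
    exact h1
  obtain ⟨w, lam, 𝔪', hw0, hwmem, hmax, hp𝔪, heig, hcong⟩ :=
    exists_eigen_lift_of_mod_p jK hjK SK
      (fun i k x => Subtype.ext (hS'comm i k x ((hKmem x).1 x.2))) SW
      (fun i x => hjS i x) p ⟨y, (hKmem y).2 hyβ⟩ hy₀ ι₀ c hcK
  refine ⟨w, lam, 𝔪', hw0, ?_, hmax, hp𝔪, heig, hcong⟩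
  have hrange : Set.range jK = j '' {y | β y = 0} := by
    ext x
    constructor
    · rintro ⟨k, rfl⟩
      exact ⟨k, (hKmem _).1 k.2, rfl⟩
    · rintro ⟨k, hk, rfl⟩
      exact ⟨⟨k, (hKmem k).2 hk⟩, rfl⟩
  rw [← hrange]
  exact hwmem

/-- **Abstract level raising, integral form** (the statement consumed by the S41 assembly). -/
theorem exists_new_eigen_int (p : ℕ) [Fact p.Prime]
    {X Y : Type*} [AddCommGroup X] [AddCommGroup Y] [Module.Finite ℤ X] [Module.Finite ℤ Y]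
    (htf : ∀ x : X, p • x = 0 → x = 0)
    (a1 a2 : X →+ Y) (b1 b2 : Y →+ X)
    (EX : X →+ X →+ ZMod p) (EY : Y →+ Y →+ ZMod p)
    (hEX : ∀ x, (∀ x', EX x x' = 0) → ∃ w, x = p • w)
    (hEY : ∀ y, (∀ y', EY y y' = 0) → ∃ w, y = p • w)
    (hadj1 : ∀ x u, EY (a1 x) u = EX x (b1 u)) (hadj2 : ∀ x u, EY (a2 x) u = EX x (b2 u))
    {ι : Type*} (S' : ι → (Y →+ Y))
    (hS'comm : ∀ i k y, b1 y = 0 → b2 y = 0 → S' i (S' k y) = S' k (S' i y))
    (hS'b : ∀ i y, b1 y = 0 → b2 y = 0 → b1 (S' i y) = 0 ∧ b2 (S' i y) = 0)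
    (ι₀ : Set ι) (S : ι → (X →+ X)) (c : ι → ℤ)
    (ha1S : ∀ i ∈ ι₀, ∀ x, a1 (S i x) = S' i (a1 x))
    (ha2S : ∀ i ∈ ι₀, ∀ x, a2 (S i x) = S' i (a2 x))
    (i₀ : ι) (hi₀ : i₀ ∈ ι₀)
    (hb1S : ∀ y, b1 (S' i₀ y) = S i₀ (b1 y)) (hb2S : ∀ y, b2 (S' i₀ y) = S i₀ (b2 y))
    (hsa : ∀ x x', EX (S i₀ x) x' = EX x (S i₀ x'))
    (hIhara : ∀ x₁ x₂ : X, (∃ w, a1 x₁ + a2 x₂ = p • w) → (∃ w, S i₀ x₁ - c i₀ • x₁ = p • w) →
      (∃ w, S i₀ x₂ - c i₀ • x₂ = p • w) → (∃ w, x₁ = p • w) ∧ ∃ w, x₂ = p • w)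
    (x₁ x₂ : X) (hx : ¬ ((∃ w, x₁ = p • w) ∧ ∃ w, x₂ = p • w))
    (hba1 : ∃ w, b1 (a1 x₁ + a2 x₂) = p • w) (hba2 : ∃ w, b2 (a1 x₁ + a2 x₂) = p • w)
    (hSx₁ : ∀ i ∈ ι₀, ∃ w, S i x₁ - c i • x₁ = p • w)
    (hSx₂ : ∀ i ∈ ι₀, ∃ w, S i x₂ - c i • x₂ = p • w)
    {W : Type*} [AddCommGroup W] [Module ℂ W] (j : Y →+ W) (hj : Function.Injective j)
    (SW : ι → (W →ₗ[ℂ] W)) (hjS : ∀ i y, SW i (j y) = j (S' i y)) :
    ∃ (w : W) (lam : ι → integralClosure ℤ ℂ) (𝔪' : Ideal (integralClosure ℤ ℂ)),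
      w ≠ 0 ∧ w ∈ Submodule.span ℂ (j '' {y | b1 y = 0 ∧ b2 y = 0}) ∧ 𝔪'.IsMaximal ∧
      (p : integralClosure ℤ ℂ) ∈ 𝔪' ∧
      (∀ i, SW i w = ((lam i : integralClosure ℤ ℂ) : ℂ) • w) ∧
      ∀ i ∈ ι₀, lam i - (c i : integralClosure ℤ ℂ) ∈ 𝔪' := by
  classical
  have hp : p.Prime := Fact.out
  -- the operator `S i₀ - c i₀`
  let σ : X →+ X :=
    { toFun := fun x => S i₀ x - c i₀ • x
      map_zero' := by simp
      map_add' := fun x y => by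
        simp only [map_add, smul_add]
        abel }
  have hσ : ∀ x, σ x = S i₀ x - c i₀ • x := fun x => rfl
  let σY : Y →+ Y :=
    { toFun := fun y => S' i₀ y - c i₀ • y
      map_zero' := by simp
      map_add' := fun x y => by
        simp only [map_add, smul_add]
        abel }
  have hσY : ∀ y, σY y = S' i₀ y - c i₀ • y := fun y => rfl
  -- the pair lattice
  let α : X × X →+ Y := a1.coprod a2
  let β : Y →+ X × X := b1.prod b2
  let τ : X × X →+ X × X := σ.prodMap σ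
  have hα : ∀ v : X × X, α v = a1 v.1 + a2 v.2 := fun v => rfl
  have hβ : ∀ y, β y = (b1 y, b2 y) := fun y => rfl
  have hβ0 : ∀ y, β y = 0 ↔ b1 y = 0 ∧ b2 y = 0 := fun y => by
    rw [hβ]
    exact Prod.mk_eq_zero
  have hτ : ∀ v : X × X, τ v = (σ v.1, σ v.2) := fun v => rfl
  have hτβ' : ∀ y, τ (β y) = β (σY y) := fun y => by
    rw [hτ, hβ, hβ, hσ, hσ, hσY, map_sub, map_sub, map_zsmul, map_zsmul, hb1S, hb2S]
  have hασ : ∀ v, α (τ v) = σY (α v) := fun v => by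
    rw [hα, hα, hτ, hσ, hσ, hσY, map_sub, map_sub, map_zsmul, map_zsmul, ha1S i₀ hi₀,
      ha2S i₀ hi₀, map_add, smul_add]
    abel
  have hdiv : ∀ v : X × X, (∃ w, v = p • w) ↔ (∃ x₀, v.1 = p • x₀) ∧ ∃ x₀, v.2 = p • x₀ := by
    intro v
    constructor
    · rintro ⟨w, rfl⟩
      exact ⟨⟨w.1, rfl⟩, ⟨w.2, rfl⟩⟩
    · rintro ⟨⟨x₁, h1⟩, ⟨x₂, h2⟩⟩
      exact ⟨(x₁, x₂), Prod.ext h1 h2⟩
  have hH1 : ∀ v, (∃ z, α v = p • z) → (∃ w, τ v = p • w) → ∃ w, v = p • w := by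
    rintro v hz ⟨w, hw⟩
    rw [hdiv]
    refine hIhara v.1 v.2 hz ⟨w.1, ?_⟩ ⟨w.2, ?_⟩
    · rw [← hσ]
      exact congrArg Prod.fst hw
    · rw [← hσ]
      exact congrArg Prod.snd hw
  have hH2 : ∀ w : X × X, ∃ a y b, w = τ a + β y + p • b := by
    apply exists_decomp_of_pairing p α β τ (fun v w => EX v.1 w.1 + EX v.2 w.2) (fun y u => EY y u)
    · intro v v' w
      change EX (v.1 + v'.1) w.1 + EX (v.2 + v'.2) w.2 = _
      rw [map_add, map_add, AddMonoidHom.add_apply, AddMonoidHom.add_apply]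
      abel
    · intro v w w'
      change EX v.1 (w.1 + w'.1) + EX v.2 (w.2 + w'.2) = _
      rw [map_add, map_add]
      abel
    · intro v hv
      rw [hdiv]
      constructor
      · apply hEX
        intro x'
        have := hv (x', 0)
        simpa using this
      · apply hEX
        intro x'
        have := hv (0, x')
        simpa using this
    · exact hEY
    · intro v y
      change EY (a1 v.1 + a2 v.2) y = EX v.1 (b1 y) + EX v.2 (b2 y)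
      rw [map_add, AddMonoidHom.add_apply, hadj1, hadj2]
    · intro v w
      change EX (S i₀ v.1 - c i₀ • v.1) w.1 + EX (S i₀ v.2 - c i₀ • v.2) w.2 =
        EX v.1 (S i₀ w.1 - c i₀ • w.1) + EX v.2 (S i₀ w.2 - c i₀ • w.2)
      rw [map_sub, map_sub, map_sub, map_sub, AddMonoidHom.sub_apply, AddMonoidHom.sub_apply,
        map_zsmul, map_zsmul, map_zsmul, map_zsmul, AddMonoidHom.smul_apply,
        AddMonoidHom.smul_apply, hsa, hsa]
    · exact hH1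
  -- the lattice step
  obtain ⟨u₁, hu₁⟩ := hba1
  obtain ⟨u₂, hu₂⟩ := hba2
  obtain ⟨w₁, hw₁⟩ := hSx₁ i₀ hi₀
  obtain ⟨w₂, hw₂⟩ := hSx₂ i₀ hi₀
  obtain ⟨y, hyβ, hyp, hyv⟩ := exists_ker_lift p hp.pos
    (fun v hv => by
      have h1 := congrArg Prod.fst hv
      have h2 := congrArg Prod.snd hv
      exact Prod.ext (htf _ h1) (htf _ h2))
    α β τ (fun y => ⟨σY y, hτβ' y⟩)
    (fun v => by rw [hτβ', hασ]) hH1 hH2 (x₁, x₂)
    (fun h => hx ((hdiv _).1 h))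
    ⟨(u₁, u₂), by
      rw [hα, hβ]
      exact Prod.ext hu₁ hu₂⟩
    ⟨(w₁, w₂), by
      rw [hτ]
      exact Prod.ext hw₁ hw₂⟩
  -- the eigen-lift on `ker β`
  obtain ⟨w, lam, 𝔪', hw0, hwmem, hmax, hp𝔪, heig, hcong⟩ :=
    exists_eigen_of_ker_elt p
      (fun v hv => by
        have h1 := congrArg Prod.fst hv
        have h2 := congrArg Prod.snd hv
        exact Prod.ext (htf _ h1) (htf _ h2))
      α β S'
      (fun i k y hy => hS'comm i k y ((hβ0 y).1 hy).1 ((hβ0 y).1 hy).2)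
      (fun i y hy => (hβ0 _).2 (hS'b i y ((hβ0 y).1 hy).1 ((hβ0 y).1 hy).2))
      ι₀ (fun i => (S i).prodMap (S i)) c
      (fun i hi v => by
        change a1 (S i v.1) + a2 (S i v.2) = S' i (a1 v.1 + a2 v.2)
        rw [ha1S i hi, ha2S i hi, map_add])
      (x₁, x₂)
      (fun i hi => by
        obtain ⟨t₁, ht₁⟩ := hSx₁ i hi
        obtain ⟨t₂, ht₂⟩ := hSx₂ i hi
        exact ⟨(t₁, t₂), Prod.ext ht₁ ht₂⟩)
      y hyβ hyp hyv j hj SW hjS
  refine ⟨w, lam, 𝔪', hw0, ?_, hmax, hp𝔪, heig, hcong⟩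
  have hset : {y | β y = 0} = {y | b1 y = 0 ∧ b2 y = 0} := by
    ext y
    exact hβ0 y
  rw [← hset]
  exact hwmem

end Fermat.Agent.S41.H84
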