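import Mathlib
import Fermat.Agent.S41.H84.Lattice
import Fermat.Agent.S41.H84.DualLattice

/-!
# S41 / CORE: the Ribet counting step in the integral shape of the S41 architecture

`X` = integral parabolic classes of level `N`, `Y` = integral parabolic classes of level `N q`,
`a1 a2 : X → Y` the two degeneracy maps, `b1 b2 : Y → X` the two transfers, `TX`, `TY` the Hecke
operators at one non-Eisenstein prime, `Tq` the Hecke operator `T_q` of level `N`, `EX`, `EY` the
Poincaré pairings modulo `p`.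
-/

set_option autoImplicit false

namespace Fermat.Agent.S41.H84

/-- **CORE.**  From `x ∉ p X` with `(TX - n) x ∈ p X` and `(Tq - ε (q + 1)) x ∈ p X` (`ε = ± 1`),
Ihara's lemma at the eigenvalue `n` (`hIH`) and the perfect adjoint pairings, we get a class
`y ∈ ker b1 ∩ ker b2`, `y ∉ p Y`, with `y ≡ a1 x - ε • a2 x mod p Y`. -/
theorem core {X Y : Type*} [AddCommGroup X] [AddCommGroup Y] [Module.Finite ℤ X]
    (p q : ℕ) [Fact p.Prime] (hXtf : ∀ x : X, p • x = 0 → x = 0)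
    (a1 a2 : X →+ Y) (b1 b2 : Y →+ X) (TX Tq : X →+ X) (TY : Y →+ Y)
    (ha1T : ∀ x, a1 (TX x) = TY (a1 x)) (ha2T : ∀ x, a2 (TX x) = TY (a2 x))
    (hb1T : ∀ y, b1 (TY y) = TX (b1 y)) (hb2T : ∀ y, b2 (TY y) = TX (b2 y))
    (hb1a1 : ∀ x, b1 (a1 x) = (q + 1) • x) (hb2a2 : ∀ x, b2 (a2 x) = (q + 1) • x)
    (hb1a2 : ∀ x, b1 (a2 x) = Tq x) (hb2a1 : ∀ x, b2 (a1 x) = Tq x)
    (n ε : ℤ) (hε : ε = 1 ∨ ε = -1)
    (EX : X → X → ZMod p) (EY : Y → Y → ZMod p)
    (hEXl : ∀ x x' z, EX (x + x') z = EX x z + EX x' z)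
    (hEXr : ∀ x z z', EX x (z + z') = EX x z + EX x z')
    (hEYl : ∀ y y' u, EY (y + y') u = EY y u + EY y' u)
    (hPX : ∀ x, (∀ x', EX x x' = 0) → ∃ x₀, x = p • x₀)
    (hPY : ∀ y, (∀ y', EY y y' = 0) → ∃ y₀, y = p • y₀)
    (hadj1 : ∀ x u, EY (a1 x) u = EX x (b1 u)) (hadj2 : ∀ x u, EY (a2 x) u = EX x (b2 u))
    (hsa : ∀ x x', EX (TX x) x' = EX x (TX x'))
    (hIH : ∀ x1 x2 : X, (∃ y₀, a1 x1 + a2 x2 = p • y₀) → (∃ x₀, TX x1 - n • x1 = p • x₀) →
      (∃ x₀, x1 = p • x₀) ∧ ∃ x₀, x2 = p • x₀)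
    (x : X) (hx : ¬ ∃ x₀, x = p • x₀) (hxT : ∃ x₀, TX x - n • x = p • x₀)
    (hxq : ∃ x₀, Tq x - (ε * ((q : ℤ) + 1)) • x = p • x₀) :
    ∃ y : Y, b1 y = 0 ∧ b2 y = 0 ∧ (¬ ∃ y₀, y = p • y₀) ∧
      ∃ y₀, y - (a1 x - ε • a2 x) = p • y₀ := by
  classical
  have hp : p.Prime := Fact.out
  -- additive versions of `EX`
  let El : X → (X →+ ZMod p) := fun z =>
    { toFun := fun x => EX x z
      map_zero' := by
        have := hEXl 0 0 z
        rw [add_zero] at this
        exact left_eq_add.mp this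
      map_add' := fun x x' => hEXl x x' z }
  let Er : X → (X →+ ZMod p) := fun x =>
    { toFun := fun z => EX x z
      map_zero' := by
        have := hEXr x 0 0
        rw [add_zero] at this
        exact left_eq_add.mp this
      map_add' := fun z z' => hEXr x z z' }
  have hEl : ∀ x z, EX x z = El z x := fun x z => rfl
  have hEr : ∀ x z, EX x z = Er x z := fun x z => rfl
  have hEXsubl : ∀ x x' z, EX (x - x') z = EX x z - EX x' z := fun x x' z => by
    rw [hEl, map_sub, ← hEl, ← hEl]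
  have hEXsubr : ∀ x z z', EX x (z - z') = EX x z - EX x z' := fun x z z' => by
    rw [hEr, map_sub, ← hEr, ← hEr]
  have hEXsmull : ∀ (m : ℤ) x z, EX (m • x) z = m • EX x z := fun m x z => by
    rw [hEl, map_zsmul, ← hEl]
  have hEXsmulr : ∀ (m : ℤ) x z, EX x (m • z) = m • EX x z := fun m x z => by
    rw [hEr, map_zsmul, ← hEr]
  have hEX0r : ∀ x, EX x 0 = 0 := fun x => by rw [hEr, map_zero]
  -- the operator `TX - n`
  let σ : X →+ X :=
    { toFun := fun x => TX x - n • x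
      map_zero' := by simp
      map_add' := fun x y => by
        simp only [map_add, smul_add]
        abel }
  have hσ : ∀ x, σ x = TX x - n • x := fun x => rfl
  let σY : Y →+ Y :=
    { toFun := fun y => TY y - n • y
      map_zero' := by simp
      map_add' := fun x y => by
        simp only [map_add, smul_add]
        abel }
  have hσY : ∀ y, σY y = TY y - n • y := fun y => rfl
  -- the pair lattice
  let α : X × X →+ Y := a1.coprod a2
  let β : Y →+ X × X := b1.prod b2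
  let τ : X × X →+ X × X := σ.prodMap σ
  have hα : ∀ v : X × X, α v = a1 v.1 + a2 v.2 := fun v => rfl
  have hβ : ∀ y, β y = (b1 y, b2 y) := fun y => rfl
  have hτ : ∀ v : X × X, τ v = (σ v.1, σ v.2) := fun v => rfl
  have hτβ' : ∀ y, τ (β y) = β (σY y) := fun y => by
    rw [hτ, hβ, hβ, hσ, hσ, hσY, map_sub, map_sub, map_zsmul, map_zsmul, hb1T, hb2T]
  have hασ : ∀ v, α (τ v) = σY (α v) := fun v => by
    rw [hα, hα, hτ, hσ, hσ, hσY, map_sub, map_sub, map_zsmul, map_zsmul, ha1T, ha2T, map_add,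
      smul_add]
    abel
  have hdiv : ∀ v : X × X, (∃ w, v = p • w) ↔ (∃ x₀, v.1 = p • x₀) ∧ ∃ x₀, v.2 = p • x₀ := by
    intro v
    constructor
    · rintro ⟨w, rfl⟩
      exact ⟨⟨w.1, rfl⟩, ⟨w.2, rfl⟩⟩
    · rintro ⟨⟨x₁, h1⟩, ⟨x₂, h2⟩⟩
      exact ⟨(x₁, x₂), Prod.ext h1 h2⟩
  have hH1 : ∀ v, (∃ z, α v = p • z) → (∃ w, τ v = p • w) → ∃ w, v = p • w := by
    rintro v hz ⟨w, hw⟩
    rw [hdiv]
    refine hIH v.1 v.2 hz ⟨w.1, ?_⟩
    rw [← hσ]
    exact congrArg Prod.fst hw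
  have hH2 : ∀ w : X × X, ∃ a y b, w = τ a + β y + p • b := by
    apply exists_decomp_of_pairing p α β τ (fun v w => EX v.1 w.1 + EX v.2 w.2) EY
    · intro v v' w
      change EX (v.1 + v'.1) w.1 + EX (v.2 + v'.2) w.2 = _
      rw [hEXl, hEXl]
      abel
    · intro v w w'
      change EX v.1 (w.1 + w'.1) + EX v.2 (w.2 + w'.2) = _
      rw [hEXr, hEXr]
      abel
    · intro v hv
      rw [hdiv]
      constructor
      · apply hPX
        intro x'
        have := hv (x', 0)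
        simpa [hEX0r] using this
      · apply hPX
        intro x'
        have := hv (0, x')
        simpa [hEX0r] using this
    · exact hPY
    · intro v y
      change EY (a1 v.1 + a2 v.2) y = EX v.1 (b1 y) + EX v.2 (b2 y)
      rw [hEYl, hadj1, hadj2]
    · intro v w
      change EX (TX v.1 - n • v.1) w.1 + EX (TX v.2 - n • v.2) w.2 =
        EX v.1 (TX w.1 - n • w.1) + EX v.2 (TX w.2 - n • w.2)
      rw [hEXsubl, hEXsubl, hEXsubr, hEXsubr, hEXsmull, hEXsmull, hEXsmulr, hEXsmulr, hsa, hsa]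
    · exact hH1
  -- the vector `v = (x, -ε x)`
  obtain ⟨x₁, hx₁⟩ := hxT
  obtain ⟨x₂, hx₂⟩ := hxq
  have hTq : Tq x = (ε * ((q : ℤ) + 1)) • x + p • x₂ := by rw [← hx₂]; abel
  have hεε : ε * ε = 1 := by rcases hε with rfl | rfl <;> norm_num
  have hq1 : ∀ z : X, (q + 1) • z = ((q : ℤ) + 1) • z := fun z => by
    rw [← natCast_zsmul]
    push_cast
    rfl
  obtain ⟨y, hyβ, hyp, z, hz⟩ := exists_ker_lift p hp.pos
    (fun v hv => by
      have h1 := congrArg Prod.fst hv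
      have h2 := congrArg Prod.snd hv
      exact Prod.ext (hXtf _ h1) (hXtf _ h2))
    α β τ (fun y => ⟨σY y, hτβ' y⟩)
    (fun v => by rw [hτβ', hασ]) hH1 hH2 (x, -(ε • x))
    (fun h => hx ((hdiv _).1 h).1)
    ⟨(-(ε • x₂), x₂), by
      rw [hα, hβ]
      apply Prod.ext
      · change b1 (a1 x + a2 (-(ε • x))) = p • (-(ε • x₂))
        rw [map_add, map_neg, map_zsmul, map_neg, map_zsmul, hb1a1, hb1a2, hTq, hq1, smul_add,
          smul_smul, ← mul_assoc, hεε, one_mul, smul_neg, smul_comm ε p x₂]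
        abel
      · change b2 (a1 x + a2 (-(ε • x))) = p • x₂
        rw [map_add, map_neg, map_zsmul, map_neg, map_zsmul, hb2a1, hb2a2, hTq, hq1, smul_smul]
        abel⟩
    ⟨(x₁, -(ε • x₁)), by
      rw [hτ]
      apply Prod.ext
      · exact hx₁
      · change σ (-(ε • x)) = p • (-(ε • x₁))
        rw [map_neg, map_zsmul, hσ, hx₁, smul_neg, smul_comm ε p x₁]⟩
  have hβy := hyβ
  rw [hβ] at hβy
  refine ⟨y, congrArg Prod.fst hβy, congrArg Prod.snd hβy, hyp, z, ?_⟩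
  rw [← hz, hα]
  change y - (a1 x - ε • a2 x) = y - (a1 x + a2 (-(ε • x)))
  rw [map_neg, map_zsmul]
  abel

end Fermat.Agent.S41.H84
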