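import Mathlib

/-!
# S41 / KEY-ALG (K0): duality gives the surjectivity statement (H2)

Finite-dimensional linear algebra over a field.  `V` = pairs of parabolic classes mod `p` of
level `N`, `V'` = parabolic classes mod `p` of level `N q`, `α` the degeneracy map, `β` the
transfer map, `B`, `B'` the Poincaré pairings, `τ = T_ℓ₀ - a_ℓ₀`.
-/

set_option autoImplicit false

namespace Fermat.Agent.S41.H84

/-- **(K0) Duality.**  If `β` is adjoint to `α` for nondegenerate forms `B` (on the
finite-dimensional space `V`) and `B'`, if `τ` is self-adjoint for `B`, and if `α` is injective on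
`ker τ` (Ihara at the eigenvalue), then `range τ + range β = V`. -/
theorem range_sup_range_eq_top {K V V' : Type*} [Field K] [AddCommGroup V] [Module K V]
    [FiniteDimensional K V] [AddCommGroup V'] [Module K V']
    (B : LinearMap.BilinForm K V) (B' : LinearMap.BilinForm K V')
    (hB : ∀ v, (∀ w, B v w = 0) → v = 0) (hB' : ∀ y, (∀ y', B' y y' = 0) → y = 0)
    (α : V →ₗ[K] V') (β : V' →ₗ[K] V) (τ : V →ₗ[K] V)
    (hadj : ∀ v y, B' (α v) y = B v (β y))
    (hsa : ∀ v w, B (τ v) w = B v (τ w))
    (hH1 : ∀ v, α v = 0 → τ v = 0 → v = 0) :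
    LinearMap.range τ ⊔ LinearMap.range β = ⊤ := by
  by_contra hne
  obtain ⟨f, hf0, hf⟩ := Submodule.exists_le_ker_of_lt_top _ (lt_top_iff_ne_top.mpr hne)
  have hinj : Function.Injective B := by
    rw [injective_iff_map_eq_zero]
    intro v hv
    exact hB v fun w => by rw [hv]; rfl
  have hsurj : Function.Surjective B :=
    (LinearMap.injective_iff_surjective_of_finrank_eq_finrank
      (Subspace.dual_finrank_eq (K := K) (V := V)).symm).mp hinj
  obtain ⟨v, rfl⟩ := hsurj f
  apply hf0
  have hv : v = 0 := by
    apply hH1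
    · apply hB'
      intro y
      rw [hadj]
      exact hf (Submodule.mem_sup_right ⟨y, rfl⟩)
    · apply hB
      intro w
      rw [hsa]
      exact hf (Submodule.mem_sup_left ⟨w, rfl⟩)
  rw [hv, map_zero]

end Fermat.Agent.S41.H84
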