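import Mathlib
import Fermat.Agent.S41.H84.Lattice
import Fermat.Agent.S41.H84.Dual
import Fermat.Agent.S41.H84.EigenLift

/-!
# S41 / KEY-ALG (K3): the abstract level-raising theorem

Glue of (K0) duality, (K1) lattice step and (K2) eigen-lift.

Dictionary for S41 (`N` the level, `q` the level-raising prime, `p` the residue characteristic):

* `L`  = pairs of parabolic homomorphisms `Γ₀(N) → ℤ`, `L'` = parabolic homomorphisms
  `Γ₀(N q) → ℤ`;
* `α`  = sum of the two degeneracy maps, `β` = pair of the two transfers;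
* `V`, `V'` = the parabolic (torsion-killing) homomorphisms to `ZMod p`, `red`, `red'` = reduction
  mod `p` (surjective: every such class lifts);
* `B`, `B'` = the Poincaré pairings mod `p`;
* `ι` = all primes, `S' i` = the Hecke operators of level `N q` (`T_ℓ` or `U_ℓ`),
  `ι₀` = the good primes not dividing `N q p`, `S i` = `T_ℓ` on pairs, `c i = a_ℓ(E)`;
* `i₀` = one non-Eisenstein prime (hypothesis `hIhara` is Ihara's lemma at that eigenvalue);
* `vbar = (-ε x, x)` for a mod `p` eigenvector `x` with `T_q x = ε (q + 1) x`;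
* `W` = homomorphisms `Γ₀(N q) → ℂ`, `j` = composition with `ℤ → ℂ`.
-/

set_option autoImplicit false

namespace Fermat.Agent.S41.H84

/-- **(K3) Abstract level raising.** -/
theorem exists_new_eigen (p : ℕ) [Fact p.Prime]
    {L L' : Type*} [AddCommGroup L] [AddCommGroup L'] [Module.Finite ℤ L] [Module.Finite ℤ L']
    (htf : ∀ x : L, p • x = 0 → x = 0)
    (α : L →+ L') (β : L' →+ L)
    {V V' : Type*} [AddCommGroup V] [Module (ZMod p) V] [AddCommGroup V'] [Module (ZMod p) V']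
    (red : L →+ V) (red' : L' →+ V')
    (hred : Function.Surjective red) (hred' : Function.Surjective red')
    (hker : ∀ x, red x = 0 → ∃ w, x = p • w)
    (αbar : V →ₗ[ZMod p] V') (βbar : V' →ₗ[ZMod p] V)
    (hα : ∀ x, red' (α x) = αbar (red x)) (hβ : ∀ y, red (β y) = βbar (red' y))
    (B : LinearMap.BilinForm (ZMod p) V) (B' : LinearMap.BilinForm (ZMod p) V')
    (hB : ∀ v, (∀ w, B v w = 0) → v = 0) (hB' : ∀ y, (∀ y', B' y y' = 0) → y = 0)
    (hadj : ∀ v y, B' (αbar v) y = B v (βbar y))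
    {ι : Type*} (S' : ι → (L' →+ L'))
    (hS'comm : ∀ i k y, β y = 0 → S' i (S' k y) = S' k (S' i y))
    (hS'β : ∀ i y, β y = 0 → β (S' i y) = 0)
    (ι₀ : Set ι) (S : ι → (L →+ L)) (c : ι → ℤ)
    (hαS : ∀ i ∈ ι₀, ∀ x, α (S i x) = S' i (α x))
    (Sbar : ι → (V →ₗ[ZMod p] V)) (hSbar : ∀ i ∈ ι₀, ∀ x, red (S i x) = Sbar i (red x))
    (i₀ : ι) (hi₀ : i₀ ∈ ι₀) (hβS : ∀ y, β (S' i₀ y) = S i₀ (β y))
    (hsa : ∀ v w, B (Sbar i₀ v) w = B v (Sbar i₀ w))
    (hIhara : ∀ v : V, αbar v = 0 → Sbar i₀ v = (c i₀ : ZMod p) • v → v = 0)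
    (vbar : V) (hv : vbar ≠ 0) (hβαv : βbar (αbar vbar) = 0)
    (hSv : ∀ i ∈ ι₀, Sbar i vbar = (c i : ZMod p) • vbar)
    {W : Type*} [AddCommGroup W] [Module ℂ W] (j : L' →+ W) (hj : Function.Injective j)
    (SW : ι → (W →ₗ[ℂ] W)) (hjS : ∀ i y, SW i (j y) = j (S' i y)) :
    ∃ (w : W) (lam : ι → integralClosure ℤ ℂ) (𝔪' : Ideal (integralClosure ℤ ℂ)),
      w ≠ 0 ∧ w ∈ Submodule.span ℂ (j '' {y | β y = 0}) ∧ 𝔪'.IsMaximal ∧
      (p : integralClosure ℤ ℂ) ∈ 𝔪' ∧
      (∀ i, SW i w = ((lam i : integralClosure ℤ ℂ) : ℂ) • w) ∧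
      ∀ i ∈ ι₀, lam i - (c i : integralClosure ℤ ℂ) ∈ 𝔪' := by
  classical
  have hp : p.Prime := Fact.out
  -- generalities on the reduction maps
  have hredp : ∀ x, red (p • x) = 0 := fun x => by
    rw [map_nsmul]
    exact ZModModule.char_nsmul_eq_zero p _
  have hredc : ∀ (n : ℤ) x, red (n • x) = (n : ZMod p) • red x := fun n x => by
    rw [map_zsmul, Int.cast_smul_eq_zsmul]
  have hfinZ : Module.Finite ℤ V := Module.Finite.of_surjective red.toIntLinearMap hred
  have hfinV : Module.Finite (ZMod p) V := Module.Finite.of_restrictScalars_finite ℤ (ZMod p) V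
  -- the operator `τ = S i₀ - c i₀`
  let τ : L →+ L :=
    { toFun := fun x => S i₀ x - c i₀ • x
      map_zero' := by simp
      map_add' := fun x y => by
        simp only [map_add, smul_add]
        abel }
  have hτ : ∀ x, τ x = S i₀ x - c i₀ • x := fun x => rfl
  let τbar : V →ₗ[ZMod p] V := Sbar i₀ - (c i₀ : ZMod p) • LinearMap.id
  have hτbar : ∀ x, τbar x = Sbar i₀ x - (c i₀ : ZMod p) • x := fun x => rfl
  have hredτ : ∀ x, red (τ x) = τbar (red x) := fun x => by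
    rw [hτ, hτbar, map_sub, hSbar i₀ hi₀, hredc]
  -- (H1) over `ZMod p`
  have hH1bar : ∀ v, αbar v = 0 → τbar v = 0 → v = 0 := fun v h1 h2 =>
    hIhara v h1 (sub_eq_zero.mp (by rw [← hτbar]; exact h2))
  -- (H2) over `ZMod p` by duality
  have htop : LinearMap.range τbar ⊔ LinearMap.range βbar = ⊤ := by
    apply range_sup_range_eq_top B B' hB hB' αbar βbar τbar hadj _ hH1bar
    intro v w
    rw [hτbar, hτbar, map_sub, map_sub, LinearMap.sub_apply, hsa, map_smul, map_smul,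
      LinearMap.smul_apply]
  -- hypotheses of the lattice step
  have hτβ : ∀ y, ∃ y', τ (β y) = β y' := fun y =>
    ⟨S' i₀ y - c i₀ • y, by rw [hτ, map_sub, hβS, map_zsmul]⟩
  have hcomm : ∀ v, τ (β (α v)) = β (α (τ v)) := fun v => by
    rw [hτ, hτ, map_sub, map_sub, map_zsmul, map_zsmul, hαS i₀ hi₀, hβS]
  have hH1 : ∀ v, (∃ z, α v = p • z) → (∃ w, τ v = p • w) → ∃ w, v = p • w := by
    rintro v ⟨z, hz⟩ ⟨w, hw⟩
    apply hker
    apply hH1bar
    · rw [← hα, hz, map_nsmul]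
      exact ZModModule.char_nsmul_eq_zero p _
    · rw [← hredτ, hw, hredp]
  have hH2 : ∀ w : L, ∃ a y b, w = τ a + β y + p • b := by
    intro w
    have hmem : red w ∈ LinearMap.range τbar ⊔ LinearMap.range βbar := by
      rw [htop]
      trivial
    rw [Submodule.mem_sup] at hmem
    obtain ⟨_, ⟨a', rfl⟩, _, ⟨y', rfl⟩, hsum⟩ := hmem
    obtain ⟨a, rfl⟩ := hred a'
    obtain ⟨y, rfl⟩ := hred' y'
    obtain ⟨b, hb⟩ := hker (w - (τ a + β y)) (by
      rw [map_sub, map_add, hredτ, hβ, hsum, sub_self])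
    exact ⟨a, y, b, by rw [← hb]; abel⟩
  -- the vector
  obtain ⟨v, rfl⟩ := hred vbar
  have hv' : ¬ ∃ w, v = p • w := by
    rintro ⟨w, rfl⟩
    exact hv (hredp w)
  have hβαv' : ∃ u, β (α v) = p • u := hker _ (by rw [hβ, hα, hβαv])
  have hSv' : ∀ i ∈ ι₀, ∃ w, S i v - c i • v = p • w := fun i hi =>
    hker _ (by rw [map_sub, hSbar i hi, hredc, hSv i hi, sub_self])
  obtain ⟨y, hyβ, hyp, z₁, hz₁⟩ :=
    exists_ker_lift p hp.pos htf α β τ hτβ hcomm hH1 hH2 v hv' hβαv' (hSv' i₀ hi₀)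
  -- the lattice `ker β`
  let K : Submodule ℤ L' := LinearMap.ker β.toIntLinearMap
  have hKmem : ∀ x, x ∈ K ↔ β x = 0 := fun x => LinearMap.mem_ker
  have hnoeth : IsNoetherian ℤ L' := isNoetherian_of_isNoetherianRing_of_finite ℤ L'
  have hfinK : Module.Finite ℤ K := Module.IsNoetherian.finite ℤ K
  let SK : ι → (K →+ K) := fun i =>
    ((S' i).toIntLinearMap.restrict
      (fun x hx => (hKmem _).2 (hS'β i x ((hKmem x).1 hx)))).toAddMonoidHom
  have hSK : ∀ i (x : K), ((SK i x : K) : L') = S' i x := fun i x => rfl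
  let jK : K →+ W := j.comp K.subtype.toAddMonoidHom
  have hjK : Function.Injective jK := fun a b hab => Subtype.ext (hj hab)
  have hy₀ : ¬ ∃ z : K, (⟨y, (hKmem y).2 hyβ⟩ : K) = p • z := by
    rintro ⟨z, hz⟩
    exact hyp ⟨z, by simpa using congrArg Subtype.val hz⟩
  have hcK : ∀ i ∈ ι₀, ∃ z : K, SK i ⟨y, (hKmem y).2 hyβ⟩ - c i • (⟨y, (hKmem y).2 hyβ⟩ : K) =
      p • z := by
    intro i hi
    obtain ⟨w, hw⟩ := hSv' i hi
    have hy : y = α v + p • z₁ := by rw [← hz₁]; abel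
    have h1 : S' i y - c i • y = p • (α w + (S' i z₁ - c i • z₁)) := by
      rw [hy, map_add, map_nsmul, smul_add, ← hαS i hi, smul_add, smul_sub, ← map_nsmul α, ← hw,
        map_sub, map_zsmul, smul_comm (c i) p z₁]
      abel
    have h2 : β (α w + (S' i z₁ - c i • z₁)) = 0 := by
      apply htf
      rw [← map_nsmul, ← h1, map_sub, map_zsmul, hyβ, hS'β i y hyβ, smul_zero, sub_zero]
    refine ⟨⟨_, (hKmem _).2 h2⟩, Subtype.ext ?_⟩
    exact h1
  obtain ⟨w, lam, 𝔪', hw0, hwmem, hmax, hp𝔪, heig, hcong⟩ :=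
    exists_eigen_lift_of_mod_p jK hjK SK
      (fun i k x => Subtype.ext (hS'comm i k x ((hKmem x).1 x.2))) SW
      (fun i x => hjS i x) p ⟨y, (hKmem y).2 hyβ⟩ hy₀ ι₀ c hcK
  refine ⟨w, lam, 𝔪', hw0, ?_, hmax, hp𝔪, heig, hcong⟩
  have hrange : Set.range jK = j '' {y | β y = 0} := by
    ext x
    constructor
    · rintro ⟨k, rfl⟩
      exact ⟨k, (hKmem _).1 k.2, rfl⟩
    · rintro ⟨k, hk, rfl⟩
      exact ⟨⟨k, (hKmem k).2 hk⟩, rfl⟩
  rw [← hrange]
  exact hwmem

/-- An eigenvalue of an involution is a square root of `1`: if `SW (SW w) = w` on a spanning set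
and `SW w = lam • w` for some nonzero `w` of the span, then `lam ^ 2 = 1`. -/
theorem sq_eq_one_of_involution {W : Type*} [AddCommGroup W] [Module ℂ W] (s : Set W)
    (T : W →ₗ[ℂ] W) (hT : ∀ x ∈ s, T (T x) = x) (w : W) (hw : w ∈ Submodule.span ℂ s)
    (hw0 : w ≠ 0) (lam : integralClosure ℤ ℂ) (hlam : T w = ((lam : integralClosure ℤ ℂ) : ℂ) • w) :
    lam ^ 2 = 1 := by
  have hall : ∀ x ∈ Submodule.span ℂ s, T (T x) = x := by
    intro x hx
    induction hx using Submodule.span_induction with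
    | mem x hx => exact hT x hx
    | zero => rw [map_zero, map_zero]
    | add x y _ _ hx hy => rw [map_add, map_add, hx, hy]
    | smul a x _ hx => rw [map_smul, map_smul, hx]
  have hTT : T (T w) = w := hall w hw
  rw [hlam, map_smul, hlam, smul_smul] at hTT
  have h1 : (((lam : integralClosure ℤ ℂ) : ℂ) * ((lam : integralClosure ℤ ℂ) : ℂ) - 1) • w = 0 := by
    rw [sub_smul, hTT, one_smul, sub_self]
  have h2 : ((lam : integralClosure ℤ ℂ) : ℂ) * ((lam : integralClosure ℤ ℂ) : ℂ) - 1 = 0 := by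
    rcases smul_eq_zero.mp h1 with h | h
    · exact h
    · exact absurd h hw0
  apply Subtype.ext
  rw [sq]
  exact sub_eq_zero.mp h2

end Fermat.Agent.S41.H84
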